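import Fermat.Agent.FermatQuartic.Sections
import Mathlib.Algebra.Polynomial.SpecificDegree
import Mathlib.RingTheory.AdjoinRoot
import Mathlib.RingTheory.Ideal.GoingUp
import Mathlib.RingTheory.Polynomial.UniqueFactorization

/-!
# Density of the rational points on `L s (s² + L²) = q (q² + 1)`

At a good `L` the cubic is irreducible over `ℚ(s)` and has infinitely many rational points, so a
polynomial of degree at most two in `q` vanishing at them vanishes identically.
-/

set_option autoImplicit false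
set_option linter.unusedSectionVars false
set_option linter.style.haveILetI false

noncomputable section

open Polynomial
open scoped Classical

namespace FA.FermatQuartic

/-- The equation of the chart. -/
def OnChart {R : Type*} [CommRing R] (L s q : R) : Prop :=
  L * s * (s ^ 2 + L ^ 2) = q * (q ^ 2 + 1)

/-- The plane cubic at a good parameter has infinitely many rational points. -/
theorem infinite_chart_points {t : ℚ} (h0 : t ≠ 0) (h1 : t ^ 8 ≠ 1) (hg : t ∈ goodParameters) :
    {P : ℚ × ℚ | OnChart t P.1 P.2}.Infinite := by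
  set A := t - t ^ 9 with hA
  have hA0 : A ≠ 0 := by
    rw [hA, show t - t ^ 9 = t * (1 - t ^ 8) by ring]
    exact mul_ne_zero h0 (sub_ne_zero.2 (Ne.symm h1))
  set T := {P : ℚ × ℚ | P.2 ^ 2 = P.1 ^ 3 + coefA t * P.1 + coefB t}
  let u : ℚ → ℚ := fun X => t ^ 3 + A / (X + t ^ 6)
  let f : ℚ × ℚ → ℚ × ℚ := fun P =>
    (P.2 * A / (P.1 + t ^ 6) ^ 2 / (t - u P.1 ^ 3),
      u P.1 * (P.2 * A / (P.1 + t ^ 6) ^ 2 / (t - u P.1 ^ 3)))
  -- the abscissae to be avoided
  set B : Set ℚ := {X | X + t ^ 6 = 0 ∨ u X ^ 3 = t ∨ X ^ 3 + coefA t * X + coefB t = 0}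
  have hB : B.Finite := by
    have h₁ : {X : ℚ | X + t ^ 6 = 0}.Finite :=
      (Set.finite_singleton (-t ^ 6)).subset fun X (hX : X + t ^ 6 = 0) => by
        simpa using eq_neg_of_add_eq_zero_left hX
    have h₂ : {X : ℚ | X ^ 3 + coefA t * X + coefB t = 0}.Finite := by
      refine (finite_setOfPred_isRoot (p := Polynomial.X ^ 3 +
        Polynomial.C (coefA t) * Polynomial.X +
        Polynomial.C (coefB t)) ?_).subset fun X hX => ?_
      · exact Monic.ne_zero (by monicity!)
      · show IsRoot _ X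
        simpa using hX
    have h₃ : {X : ℚ | X + t ^ 6 ≠ 0 ∧ u X ^ 3 = t}.Finite := by
      refine Set.Finite.of_finite_image (f := u) ?_ fun X hX Y hY e => ?_
      · refine (finite_setOfPred_isRoot (p := Polynomial.X ^ 3 - Polynomial.C t)
          (X_pow_sub_C_ne_zero (by norm_num) t)).subset ?_
        rintro _ ⟨X, hX, rfl⟩
        show IsRoot _ _
        simp [hX.2]
      · simp only [u, add_right_inj] at e
        rw [div_eq_div_iff hX.1 hY.1] at e
        exact add_right_cancel (mul_left_cancel₀ hA0 e).symm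
    refine ((h₁.union h₂).union h₃).subset ?_
    rintro X (hX | hX | hX)
    · exact Or.inl (Or.inl hX)
    · by_cases hD : X + t ^ 6 = 0
      · exact Or.inl (Or.inl hD)
      · exact Or.inr ⟨hD, hX⟩
    · exact Or.inl (Or.inr hX)
  have hT : {P ∈ T | P.1 ∉ B}.Infinite := by
    intro hfin
    refine hg ((hfin.union (t := {P ∈ T | P.1 ∈ B}) ?_).subset fun P hP =>
      if h : P.1 ∈ B then Or.inr ⟨hP, h⟩ else Or.inl ⟨hP, h⟩)
    refine (hB.biUnion fun X _ => ((finite_setOfPred_isRoot (p := Polynomial.X ^ 2 -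
      Polynomial.C (X ^ 3 + coefA t * X + coefB t)) (X_pow_sub_C_ne_zero (by norm_num) _)).image
        fun Y => (X, Y))).subset ?_
    rintro ⟨X, Y⟩ ⟨hP, hX⟩
    refine Set.mem_biUnion hX ⟨Y, ?_, rfl⟩
    show IsRoot _ Y
    simp only [T, Set.mem_ofPred_eq] at hP
    simp [hP]
  refine Set.infinite_of_injOn_mapsTo (f := f) ?_ ?_ hT
  · rintro ⟨X, Y⟩ ⟨hP, hX⟩ ⟨X', Y'⟩ ⟨hP', hX'⟩ e
    simp only [B, Set.mem_ofPred_eq, not_or] at hX hX'
    simp only [f, Prod.mk.injEq] at e
    obtain ⟨e₁, e₂⟩ := e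
    have hY : Y ≠ 0 := fun h => hX.2.2 (by
      simp only [T, Set.mem_ofPred_eq] at hP; rw [← hP, h]; ring)
    have hs : Y * A / (X + t ^ 6) ^ 2 / (t - u X ^ 3) ≠ 0 :=
      div_ne_zero (div_ne_zero (mul_ne_zero hY hA0) (pow_ne_zero 2 hX.1))
        (sub_ne_zero.2 (Ne.symm hX.2.1))
    rw [← e₁] at e₂
    have hu : u X = u X' := mul_right_cancel₀ hs e₂
    simp only [u, add_right_inj] at hu
    rw [div_eq_div_iff hX.1 hX'.1] at hu
    have hXX : X = X' := add_right_cancel (mul_left_cancel₀ hA0 hu).symm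
    subst hXX
    refine Prod.ext rfl ?_
    have hd := (div_left_inj' (sub_ne_zero.2 (Ne.symm hX.2.1))).1 e₁
    exact mul_right_cancel₀ hA0 ((div_left_inj' (pow_ne_zero 2 hX.1)).1 hd)
  · rintro ⟨X, Y⟩ ⟨hP, hX⟩
    simp only [B, Set.mem_ofPred_eq, not_or] at hX
    simp only [T, Set.mem_ofPred_eq] at hP
    have hD : X + t ^ 6 ≠ 0 := hX.1
    set D := X + t ^ 6 with hDdef
    set v := t ^ 3 + A / D with hv
    have hne : t - v ^ 3 ≠ 0 := sub_ne_zero.2 (Ne.symm hX.2.1)
    set s := Y * A / D ^ 2 / (t - v ^ 3) with hs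
    show OnChart t s (v * s)
    have hYA : Y ^ 2 * A = D ^ 3 * t - (t ^ 3 * D + A) ^ 3 := by
      rw [hP, hDdef, hA, coefA, coefB]; ring
    have key : s ^ 2 * (t - v ^ 3) = v - t ^ 3 := by
      have h1 : (Y * A / D ^ 2) ^ 2 = (v - t ^ 3) * (t - v ^ 3) := by
        rw [hv]; field_simp
        linear_combination A * hYA
      rw [hs, div_pow, sq (t - v ^ 3), h1]
      field_simp
    simp only [OnChart]
    linear_combination s * key

theorem finite_roots_cubic (c : ℚ) : {q : ℚ | q * (q ^ 2 + 1) = c}.Finite := by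
  refine (finite_setOfPred_isRoot (p := Polynomial.X ^ 3 + Polynomial.X - Polynomial.C c) ?_).subset
    fun q hq => ?_
  · exact Monic.ne_zero (by monicity!)
  · show IsRoot _ q
    simp only [Set.mem_ofPred_eq] at hq
    simp; linear_combination hq

/-- The cubic over `ℚ[s]` at a parameter. -/
def fibrePoly (t : ℚ) : ℚ[X][X] :=
  X ^ 3 + X - C (C t * X ^ 3 + C (t ^ 3) * X)

theorem fibrePoly_monic (t : ℚ) : (fibrePoly t).Monic := by unfold fibrePoly; monicity!

theorem fibrePoly_natDegree (t : ℚ) : (fibrePoly t).natDegree = 3 := by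
  unfold fibrePoly; compute_degree!

theorem fibrePoly_irreducible {t : ℚ} (h0 : t ≠ 0) (h1 : t ^ 8 ≠ 1) :
    Irreducible (fibrePoly t) := by
  refine ((fibrePoly_monic t).irreducible_iff_roots_eq_zero_of_degree_le_three
    (by rw [fibrePoly_natDegree]; norm_num) (by rw [fibrePoly_natDegree])).2 ?_
  rw [Multiset.eq_zero_iff_forall_notMem]
  intro a ha
  rw [mem_roots (fibrePoly_monic t).ne_zero] at ha
  have he : a ^ 3 + a = C t * X ^ 3 + C (t ^ 3) * X := by
    have : eval a (fibrePoly t) = 0 := ha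
    simp [fibrePoly] at this
    linear_combination (norm := simp) this
  have hrhs : (C t * X ^ 3 + C (t ^ 3) * X : ℚ[X]).natDegree = 3 := by compute_degree!
  have hdeg : a.natDegree ≤ 1 := by
    by_contra hd
    have h3 : (a ^ 3).natDegree = 3 * a.natDegree := natDegree_pow a 3
    have h4 : (a ^ 3 + a).natDegree = 3 * a.natDegree := by
      rw [natDegree_add_eq_left_of_natDegree_lt (by omega), h3]
    rw [he, hrhs] at h4
    omega
  obtain ⟨e₁, e₀, rfl⟩ : ∃ e₁ e₀, a = C e₁ * X + C e₀ :=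
    ⟨_, _, eq_X_add_C_of_natDegree_le_one hdeg⟩
  have k₀ := congrArg (eval (0 : ℚ)) he
  have k₁ := congrArg (eval (1 : ℚ)) he
  have k₂ := congrArg (eval (2 : ℚ)) he
  simp at k₀ k₁ k₂
  have e0 : e₀ = 0 := by
    have hne : e₀ ^ 2 + 1 ≠ 0 := by positivity
    exact (mul_eq_zero.1 (show e₀ * (e₀ ^ 2 + 1) = 0 by linear_combination k₀)).resolve_right hne
  subst e0
  have e3 : e₁ ^ 3 = t := by linear_combination (1 / 6 : ℚ) * k₂ - (1 / 3 : ℚ) * k₁
  have e1 : e₁ = t ^ 3 := by linear_combination k₁ - e3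
  subst e1
  exact h1 (mul_left_cancel₀ h0 (by linear_combination e3))

/-- At a good parameter only the zero polynomial of degree below three vanishes at the rational
points. -/
theorem eq_zero_of_vanishing {t : ℚ} (h0 : t ≠ 0) (h1 : t ^ 8 ≠ 1) (hg : t ∈ goodParameters)
    {r : ℚ[X][X]} (hdeg : r.degree < (fibrePoly t).degree)
    (hv : ∀ s q : ℚ, OnChart t s q → (r.map (evalRingHom s)).eval q = 0) : r = 0 := by
  by_contra hr
  set f := fibrePoly t with hf
  haveI : Fact (Irreducible f) := ⟨fibrePoly_irreducible h0 h1⟩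
  haveI : IsDomain (AdjoinRoot f) :=
    AdjoinRoot.isDomain_of_prime (fibrePoly_irreducible h0 h1).prime
  set x := AdjoinRoot.mk f r with hx
  have hx0 : x ≠ 0 := fun e => by
    rw [hx, AdjoinRoot.mk_eq_zero] at e
    exact not_lt_of_ge (degree_le_of_dvd e hr) hdeg
  have hint : IsIntegral ℚ[X] x := by
    haveI := (fibrePoly_monic t).finite_adjoinRoot
    exact Algebra.IsIntegral.isIntegral x
  obtain ⟨d, hd, hd0⟩ := Submodule.exists_mem_ne_zero_of_ne_bot
    (Ideal.comap_ne_bot_of_integral_mem hx0 (Ideal.mem_span_singleton_self x) hint)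
  rw [Ideal.mem_comap, Ideal.mem_span_singleton] at hd
  obtain ⟨w, hw⟩ := hd
  obtain ⟨b, rfl⟩ := AdjoinRoot.mk_surjective w
  rw [hx, ← map_mul, AdjoinRoot.algebraMap_eq, ← AdjoinRoot.mk_C, AdjoinRoot.mk_eq_mk] at hw
  obtain ⟨g, hg'⟩ := hw
  have hroot : ∀ P ∈ {P : ℚ × ℚ | OnChart t P.1 P.2}, d.IsRoot P.1 := by
    rintro ⟨s, q⟩ hP
    simp only [Set.mem_ofPred_eq] at hP
    have hfz : (f.map (evalRingHom s)).eval q = 0 := by
      simp only [OnChart] at hP
      simp [hf, fibrePoly]
      linear_combination -hP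
    have := congrArg (fun p : ℚ[X][X] => (p.map (evalRingHom s)).eval q) hg'
    simp [hfz, hv s q hP] at this
    exact this
  refine infinite_chart_points h0 h1 hg (((finite_setOfPred_isRoot hd0).biUnion fun s _ =>
    (finite_roots_cubic (t * s * (s ^ 2 + t ^ 2))).image fun q => (s, q)).subset ?_)
  rintro ⟨s, q⟩ hP
  exact Set.mem_biUnion (hroot _ hP) ⟨q, Eq.symm hP, rfl⟩

/-- Evaluation of a polynomial in `L`, then `s`, then `q`. -/
def evalThree (L s q : ℚ) (G : ℚ[X][X][X]) : ℚ :=
  ((G.map (mapRingHom (evalRingHom L))).map (evalRingHom s)).eval q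

/-- The equation in three nested variables. -/
def chartPoly : ℚ[X][X][X] :=
  X ^ 3 + X - C (C (X : ℚ[X]) * X ^ 3 + C ((X : ℚ[X]) ^ 3) * X)

theorem chartPoly_monic : chartPoly.Monic := by unfold chartPoly; monicity!

theorem chartPoly_map (t : ℚ) : chartPoly.map (mapRingHom (evalRingHom t)) = fibrePoly t := by
  simp [chartPoly, fibrePoly]

theorem infinite_parameters : {t : ℚ | t ≠ 0 ∧ t ^ 8 ≠ 1 ∧ t ∈ goodParameters}.Infinite := by
  have hfin : ({t : ℚ | t = 0} ∪ {t | t ^ 8 = 1} ∪ goodParametersᶜ).Finite := by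
    refine ((Set.finite_singleton 0).union ?_).union finite_not_good
    refine (finite_setOfPred_isRoot (p := (X : ℚ[X]) ^ 8 - C 1)
      (X_pow_sub_C_ne_zero (by norm_num) 1)).subset fun t ht => ?_
    show IsRoot _ t
    simp only [Set.mem_ofPred_eq] at ht
    simp [ht]
  refine hfin.infinite_compl.mono fun t ht => ?_
  simp only [Set.mem_compl_iff, Set.mem_union, Set.mem_ofPred_eq, not_or, not_not] at ht
  exact ⟨ht.1.1, ht.1.2, ht.2⟩

/-- **Density in the chart**: a polynomial vanishing at all rational points is a multiple of the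
equation. -/
theorem chartPoly_dvd {G : ℚ[X][X][X]}
    (hG : ∀ L s q : ℚ, OnChart L s q → evalThree L s q G = 0) : chartPoly ∣ G := by
  rw [← modByMonic_eq_zero_iff_dvd chartPoly_monic]
  set r := G %ₘ chartPoly with hr
  have hz : ∀ t, t ≠ 0 → t ^ 8 ≠ 1 → t ∈ goodParameters →
      r.map (mapRingHom (evalRingHom t)) = 0 := by
    intro t h0 h1 hg
    refine eq_zero_of_vanishing h0 h1 hg ?_ fun s q hP => ?_
    · rw [hr, map_modByMonic _ chartPoly_monic, chartPoly_map]
      exact degree_modByMonic_lt _ (fibrePoly_monic t)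
    · have := hG t s q hP
      rw [evalThree, ← modByMonic_add_div G chartPoly, Polynomial.map_add, Polynomial.map_mul,
        chartPoly_map, Polynomial.map_add, Polynomial.map_mul, eval_add, eval_mul, ← hr] at this
      have hfz : ((fibrePoly t).map (evalRingHom s)).eval q = 0 := by
        simp only [OnChart] at hP
        simp [fibrePoly]
        linear_combination -hP
      rwa [hfz, zero_mul, add_zero] at this
  ext n m : 2
  rw [coeff_zero, coeff_zero]
  refine eq_zero_of_infinite_isRoot _ (infinite_parameters.mono fun t ht => ?_)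
  have := congrArg (fun p : ℚ[X][X] => (p.coeff n).coeff m) (hz t ht.1 ht.2.1 ht.2.2)
  simpa using this

end FA.FermatQuartic
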