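import Fermat.Agent.FermatQuartic.Density
import Mathlib.RingTheory.MvPolynomial.Homogeneous
import Mathlib.Algebra.Algebra.Rat
import Mathlib.Analysis.Complex.Basic

/-!
# The rational points are dense on `x⁴ + y⁴ = z⁴ + w⁴`

The chart is linear on the affine piece `w - y = 1`; four symmetries of the equation and homogeneity
cover every complex point.
-/

set_option autoImplicit false
set_option linter.unusedSectionVars false
set_option linter.style.haveILetI false

noncomputable section

open Polynomial
open scoped Classical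

namespace FA.FermatQuartic

/-- The surface. -/
def OnQuartic {R : Type*} [CommRing R] (v : Fin 4 → R) : Prop :=
  v 0 ^ 4 + v 1 ^ 4 = v 2 ^ 4 + v 3 ^ 4

/-- Evaluation at a point of the chart. -/
def evalChartHom {K : Type*} [Field K] [CharZero K] (L s q : K) : ℚ[X][X][X] →+* K :=
  eval₂RingHom (eval₂RingHom (eval₂RingHom (algebraMap ℚ K) L) s) q

theorem evalChartHom_C {K : Type*} [Field K] [CharZero K] (L s q : K) (r : ℚ) :
    evalChartHom L s q (C (C (C r))) = (r : K) := by
  simp [evalChartHom]

theorem evalChartHom_eq_evalThree (L s q : ℚ) (G : ℚ[X][X][X]) :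
    evalChartHom L s q G = evalThree L s q G := by
  have e : evalChartHom L s q = (evalRingHom q).comp ((mapRingHom (evalRingHom s)).comp
      (mapRingHom (mapRingHom (evalRingHom L)))) := by
    apply Polynomial.ringHom_ext'
    · apply Polynomial.ringHom_ext'
      · apply Polynomial.ringHom_ext'
        · exact Subsingleton.elim _ _
        · simp [evalChartHom]
      · simp [evalChartHom]
    · simp [evalChartHom]
  rw [e]
  rfl

/-- The four coordinates in the chart. -/
def chartCoord : Fin 4 → ℚ[X][X][X] :=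
  ![C (C (C (1 / 2))) * (C X + C (C X)), C (C (C (1 / 2))) * (X - 1),
    C (C (C (1 / 2))) * (C X - C (C X)), C (C (C (1 / 2))) * (X + 1)]

theorem evalChartHom_coord {K : Type*} [Field K] [CharZero K] (L s q : K) (i : Fin 4) :
    evalChartHom L s q (chartCoord i) =
      ![(s + L) / 2, (q - 1) / 2, (s - L) / 2, (q + 1) / 2] i := by
  fin_cases i <;> simp [chartCoord, evalChartHom] <;> ring

/-- A polynomial in the coordinates, in the chart. -/
def inChart (F : MvPolynomial (Fin 4) ℚ) : ℚ[X][X][X] :=
  MvPolynomial.eval₂ ((C.comp C).comp C) chartCoord F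

theorem evalChartHom_inChart {K : Type*} [Field K] [CharZero K] (L s q : K)
    (F : MvPolynomial (Fin 4) ℚ) : evalChartHom L s q (inChart F) =
      MvPolynomial.aeval ![(s + L) / 2, (q - 1) / 2, (s - L) / 2, (q + 1) / 2] F := by
  rw [inChart]
  induction F using MvPolynomial.induction_on with
  | C r => simp [evalChartHom]
  | add p q hp hq => rw [MvPolynomial.eval₂_add, map_add, map_add, hp, hq]
  | mul_X p i hp =>
    rw [MvPolynomial.eval₂_mul, MvPolynomial.eval₂_X, map_mul, map_mul, hp, evalChartHom_coord,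
      MvPolynomial.aeval_X]

/-- A polynomial vanishing at the rational points vanishes at the complex points of the chart. -/
theorem vanish_on_chart (F : MvPolynomial (Fin 4) ℚ)
    (hF : ∀ v : Fin 4 → ℚ, OnQuartic v → MvPolynomial.eval v F = 0) (v : Fin 4 → ℂ)
    (hv : OnQuartic v) (h1 : v 3 - v 1 = 1) : MvPolynomial.aeval v F = 0 := by
  have hdvd : chartPoly ∣ inChart F := chartPoly_dvd fun L s q h => by
    rw [← evalChartHom_eq_evalThree, evalChartHom_inChart]
    refine hF _ ?_
    simp only [OnChart] at h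
    simp [OnQuartic]
    linear_combination (1 / 2 : ℚ) * h
  obtain ⟨H, hH⟩ := hdvd
  have hvec : v = ![((v 0 + v 2) + (v 0 - v 2)) / 2, ((v 3 + v 1) - 1) / 2,
      ((v 0 + v 2) - (v 0 - v 2)) / 2, ((v 3 + v 1) + 1) / 2] := by
    funext i
    fin_cases i <;> simp
    · linear_combination -(1 / 2 : ℂ) * h1
    · linear_combination (1 / 2 : ℂ) * h1
  rw [hvec, ← evalChartHom_inChart, hH, map_mul]
  refine mul_eq_zero_of_left ?_ _
  have e : v 3 = v 1 + 1 := by linear_combination h1
  simp only [OnQuartic] at hv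
  rw [e] at hv
  simp only [chartPoly, map_add, map_mul, map_pow]
  simp [evalChartHom, eval₂_pow]
  rw [e]
  linear_combination (-2 : ℂ) * hv

/-- A symmetry of the equation, as four polynomials. -/
theorem vanish_after_symmetry (F : MvPolynomial (Fin 4) ℚ)
    (hF : ∀ v : Fin 4 → ℚ, OnQuartic v → MvPolynomial.eval v F = 0)
    (σ : Fin 4 → MvPolynomial (Fin 4) ℚ)
    (hσ : ∀ v : Fin 4 → ℚ, OnQuartic v → OnQuartic fun i => MvPolynomial.eval v (σ i))
    (v : Fin 4 → ℂ) (hv : OnQuartic v) (h1 : v 3 - v 1 = 1) :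
    MvPolynomial.aeval (fun i => MvPolynomial.aeval v (σ i)) F = 0 := by
  have h := vanish_on_chart (MvPolynomial.aeval σ F) (fun w hw => by
    have e : MvPolynomial.eval w (MvPolynomial.aeval σ F) =
        MvPolynomial.eval (fun i => MvPolynomial.eval w (σ i)) F := by
      rw [← MvPolynomial.coe_aeval_eq_eval, ← MvPolynomial.coe_aeval_eq_eval]
      change (MvPolynomial.aeval w) ((MvPolynomial.aeval σ) F) = _
      rw [← AlgHom.comp_apply, MvPolynomial.comp_aeval]
      rfl
    rw [e]
    exact hF _ (hσ w hw)) v hv h1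
  rwa [← AlgHom.comp_apply, MvPolynomial.comp_aeval] at h

theorem aeval_smul_point {F : MvPolynomial (Fin 4) ℚ} {d : ℕ} (hF : F.IsHomogeneous d) (c : ℂ)
    (v : Fin 4 → ℂ) :
    MvPolynomial.aeval (fun i => c * v i) F = c ^ d * MvPolynomial.aeval v F := by
  simp only [MvPolynomial.aeval_def, MvPolynomial.eval₂_eq', Finset.mul_sum]
  refine Finset.sum_congr rfl fun m hm => ?_
  have hd : ∑ i, m i = d := by
    have := hF (MvPolynomial.mem_support_iff.1 hm)
    rwa [Finsupp.weight_apply, Finsupp.sum_fintype _ _ (by simp), Finset.sum_congr rfl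
      (fun i _ => show m i • (1 : Fin 4 → ℕ) i = m i by simp)] at this
  simp only [mul_pow, Finset.prod_mul_distrib, Finset.prod_pow_eq_pow_sum, hd]
  ring

/-- **Density**: a homogeneous polynomial vanishing at the rational points vanishes at all complex
points. -/
theorem quartic_vanish {F : MvPolynomial (Fin 4) ℚ} {d : ℕ} (hF : F.IsHomogeneous d)
    (hvan : ∀ v : Fin 4 → ℚ, OnQuartic v → MvPolynomial.eval v F = 0) (v : Fin 4 → ℂ)
    (hv : OnQuartic v) : MvPolynomial.aeval v F = 0 := by
  -- after a symmetry and scaling the point lies in the chart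
  have main : ∀ (σ : Fin 4 → MvPolynomial (Fin 4) ℚ) (τ : (Fin 4 → ℂ) → Fin 4 → ℂ),
      (∀ w : Fin 4 → ℚ, OnQuartic w → OnQuartic fun i => MvPolynomial.eval w (σ i)) →
      (∀ c : ℂ, ∀ i, MvPolynomial.aeval (fun j => c * τ v j) (σ i) = c * v i) →
      OnQuartic (τ v) → τ v 3 - τ v 1 ≠ 0 → MvPolynomial.aeval v F = 0 := by
    intro σ τ hσ hτ hq hne
    set c := (τ v 3 - τ v 1)⁻¹
    have hc : c ≠ 0 := inv_ne_zero hne
    have h := vanish_after_symmetry F hvan σ hσ (fun j => c * τ v j)
      (by simp only [OnQuartic] at hq ⊢; linear_combination c ^ 4 * hq)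
      (by show c * τ v 3 - c * τ v 1 = 1; rw [← mul_sub, inv_mul_cancel₀ hne])
    rw [funext (hτ c), aeval_smul_point hF] at h
    exact (mul_eq_zero.1 h).resolve_left (pow_ne_zero d hc)
  by_cases ha : v 3 - v 1 = 0
  swap
  · exact main MvPolynomial.X id (fun w hw => by simpa [OnQuartic] using hw) (fun c i => by simp)
      hv ha
  by_cases hb : v 3 + v 1 = 0
  swap
  · refine main ![MvPolynomial.X 0, -MvPolynomial.X 1, MvPolynomial.X 2, MvPolynomial.X 3]
      (fun u => ![u 0, -u 1, u 2, u 3]) (fun w hw => ?_) (fun c i => by fin_cases i <;> simp) ?_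
      (by simpa using hb)
    · simp [OnQuartic] at hw ⊢; linear_combination hw
    · simp [OnQuartic] at hv ⊢; linear_combination hv
  by_cases hc : v 2 - v 0 = 0
  swap
  · refine main ![MvPolynomial.X 1, MvPolynomial.X 0, MvPolynomial.X 3, MvPolynomial.X 2]
      (fun u => ![u 1, u 0, u 3, u 2]) (fun w hw => ?_) (fun c i => by fin_cases i <;> simp) ?_
      (by simpa using hc)
    · simp [OnQuartic] at hw ⊢; linear_combination hw
    · simp [OnQuartic] at hv ⊢; linear_combination hv
  by_cases he : v 2 + v 0 = 0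
  swap
  · refine main ![-MvPolynomial.X 1, MvPolynomial.X 0, MvPolynomial.X 3, MvPolynomial.X 2]
      (fun u => ![u 1, -u 0, u 3, u 2]) (fun w hw => ?_) (fun c i => by fin_cases i <;> simp) ?_
      (by simpa using he)
    · simp [OnQuartic] at hw ⊢; linear_combination hw
    · simp [OnQuartic] at hv ⊢; linear_combination hv
  -- the origin
  have hv0 : v = fun i => (0 : ℂ) * 1 := by
    funext i
    fin_cases i <;> simp
    · linear_combination (1 / 2 : ℂ) * he - (1 / 2 : ℂ) * hc
    · linear_combination (1 / 2 : ℂ) * hb - (1 / 2 : ℂ) * ha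
    · linear_combination (1 / 2 : ℂ) * he + (1 / 2 : ℂ) * hc
    · linear_combination (1 / 2 : ℂ) * hb + (1 / 2 : ℂ) * ha
  rw [hv0, aeval_smul_point hF]
  refine mul_eq_zero_of_right _ ?_
  have h := hvan (fun _ => 1) (by simp [OnQuartic])
  have e : MvPolynomial.aeval (fun _ : Fin 4 => (1 : ℂ)) F =
      algebraMap ℚ ℂ (MvPolynomial.eval (fun _ => (1 : ℚ)) F) := by
    rw [← MvPolynomial.coe_aeval_eq_eval]
    change _ = (Algebra.ofId ℚ ℂ) ((MvPolynomial.aeval fun _ : Fin 4 => (1 : ℚ)) F)
    rw [← AlgHom.comp_apply, MvPolynomial.comp_aeval]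
    simp
  rw [e, h, map_zero]

end FA.FermatQuartic
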