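import Fermat.Agent.MestreRank.Classes
import Fermat.Agent.LangNeron.Silverman
import Mathlib.RingTheory.Polynomial.RationalRoot

/-!
# The elliptic fibration of `x⁴ + y⁴ = z⁴ + w⁴` through a line

The residual cubic in the plane `x - z = L (w - y)` is `L s (s² + L²) = q (q² + 1)`, birational to
`Y² = X³ - 3 L⁴ X - L² (L⁸ + 1)`; another line gives the point `(1 + L² + L⁴, 1 + L² + L⁴ + L⁶)`,
of infinite order at all but finitely many `L`.
-/

set_option autoImplicit false
set_option linter.unusedSectionVars false
set_option linter.style.haveILetI false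

noncomputable section

open WeierstrassCurve Polynomial
open FA.NeronSpecialisation (genW fibreW specW)
open FA.MestreRank (intCurve ratDecEq bit exists_classHom linearIndependent_of_classes)
open scoped Classical

namespace FA.FermatQuartic

attribute [local instance 2000] ratDecEq

variable {R S : Type*} [CommRing R] [CommRing S]

/-- `-3 L⁴`. -/
def coefA (L : R) : R := -3 * L ^ 4
/-- `-L² (L⁸ + 1)`. -/
def coefB (L : R) : R := -L ^ 2 * (L ^ 8 + 1)
/-- The abscissa of the section. -/
def secX (L : R) : R := 1 + L ^ 2 + L ^ 4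
/-- The ordinate of the section. -/
def secY (L : R) : R := 1 + L ^ 2 + L ^ 4 + L ^ 6

/-- The curve. -/
def pencilCurve (L : R) : WeierstrassCurve R := ⟨0, 0, 0, coefA L, coefB L⟩

theorem sec_equation (L : R) :
    secY L ^ 2 = secX L ^ 3 + coefA L * secX L + coefB L := by
  simp only [secX, secY, coefA, coefB]; ring

theorem pencilCurve_map (f : R →+* S) (L : R) :
    (pencilCurve L).map f = pencilCurve (f L) := by
  ext <;> simp [pencilCurve, coefA, coefB, WeierstrassCurve.map, map_ofNat]

theorem map_secX (f : R →+* S) (L : R) : f (secX L) = secX (f L) := by simp [secX]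

theorem map_secY (f : R →+* S) (L : R) : f (secY L) = secY (f L) := by simp [secY]

section Field

variable {F : Type*} [Field F]

theorem pencil_equation_iff {L x y : F} :
    (pencilCurve L).toAffine.Equation x y ↔ y ^ 2 = x ^ 3 + coefA L * x + coefB L := by
  rw [Affine.equation_iff]; simp [pencilCurve]

theorem nonsingular_sec {L : F} (hΔ : (pencilCurve L).Δ ≠ 0) :
    (pencilCurve L).toAffine.Nonsingular (secX L) (secY L) := by
  haveI : (pencilCurve L).IsElliptic :=
    (WeierstrassCurve.isElliptic_iff _).2 (isUnit_iff_ne_zero.2 hΔ)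
  exact Affine.equation_iff_nonsingular.mp (pencil_equation_iff.2 (sec_equation L))

end Field

/-- The curve at `L = 2`. -/
abbrev baseCurve : WeierstrassCurve ℚ := intCurve 0 (-48) (-1028)

instance baseCurve_isElliptic : baseCurve.IsElliptic :=
  (WeierstrassCurve.isElliptic_iff _).2 (isUnit_iff_ne_zero.2 (by
    norm_num [baseCurve, intCurve, WeierstrassCurve.Δ, WeierstrassCurve.b₂, WeierstrassCurve.b₄,
      WeierstrassCurve.b₆, WeierstrassCurve.b₈]))

instance fact_prime_five' : Fact (Nat.Prime 5) := ⟨by norm_num⟩

theorem base_equation :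
    baseCurve.toAffine.Equation (((21 : ℤ) : ℚ) / ((1 : ℤ) : ℚ) ^ 2) (85 : ℚ) := by
  rw [Affine.equation_iff]; norm_num [baseCurve, intCurve]

/-- The point at `L = 2`. -/
def basePoint : baseCurve.toAffine.Point :=
  .some _ _ (Affine.equation_iff_nonsingular.mp base_equation)

theorem base_no_two_torsion (P : baseCurve.toAffine.Point) (h : 2 • P = 0) : P = 0 := by
  rcases P with _ | ⟨x, y, hP⟩
  · rfl
  exfalso
  rw [two_nsmul, add_eq_zero_iff_eq_neg, Affine.Point.neg_some, Affine.Point.some.injEq] at h
  have hy : y = 0 := by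
    have := h.2
    simp [Affine.negY] at this
    linarith
  have he := (Affine.equation_iff x y).1 hP.1
  subst hy
  have hroot : Polynomial.aeval x (Polynomial.X ^ 3 + Polynomial.C (-48) * Polynomial.X +
      Polynomial.C (-1028) : ℤ[X]) = 0 := by
    simp [map_ofNat] at he ⊢
    linear_combination -he
  obtain ⟨r, rfl, -⟩ := exists_integer_of_is_root_of_monic (by monicity!) hroot
  have hr : r ^ 3 + (-48) * r + (-1028) = 0 := by
    simp [map_ofNat] at hroot
    have hc : ((r ^ 3 + (-48) * r + (-1028) : ℤ) : ℚ) = ((0 : ℤ) : ℚ) := by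
      push_cast; linear_combination hroot
    exact_mod_cast hc
  have h7 := congrArg (Int.cast : ℤ → ZMod 7) hr
  push_cast at h7
  revert h7
  generalize (r : ZMod 7) = z
  revert z
  decide +kernel

theorem base_independent : LinearIndependent ℤ fun _ : Fin 1 => basePoint := by
  obtain ⟨φ, hφ⟩ := exists_classHom (p := 5) (A := 0) (B := -48) (C := -1028) (θ := 3) (by norm_num)
    (by decide +kernel) (by decide +kernel)
  refine linearIndependent_of_classes base_no_two_torsion _ (fun _ : Fin 1 => φ) (fun _ _ => 1)
    fun i j => ?_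
  have hv : φ basePoint = 1 := (hφ 21 1 _ _ (by norm_num) (by decide +kernel)).trans
    (by unfold bit; decide +kernel)
  simp [hv, Subsingleton.elim i j]

/-- The equation over `ℚ[L]`. -/
def pencilFamily : WeierstrassCurve ℚ[X] := pencilCurve X

theorem fibreW_pencilFamily (t : ℚ) : fibreW pencilFamily t = pencilCurve t := by
  rw [fibreW, pencilFamily, pencilCurve_map, coe_evalRingHom, eval_X]

theorem genW_pencilFamily : genW pencilFamily = pencilCurve (algebraMap ℚ[X] (RatFunc ℚ) X) := by
  rw [genW, pencilFamily, pencilCurve_map]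

theorem pencilCurve_two : pencilCurve (2 : ℚ) = baseCurve := by
  ext <;> simp [pencilCurve, coefA, coefB] <;> norm_num

theorem fibre_two_Δ : (fibreW pencilFamily 2).Δ ≠ 0 := by
  rw [fibreW_pencilFamily, pencilCurve_two]
  exact baseCurve.isUnit_Δ.ne_zero

theorem pencilFamily_Δ : pencilFamily.Δ ≠ 0 := fun h => by
  have := congrArg (evalRingHom (2 : ℚ)) h
  rw [← WeierstrassCurve.map_Δ, map_zero] at this
  exact fibre_two_Δ this

theorem gen_nonsingular : (genW pencilFamily).toAffine.Nonsingular
    (algebraMap ℚ[X] (RatFunc ℚ) (secX X)) (algebraMap ℚ[X] (RatFunc ℚ) (secY X)) := by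
  have hΔ : (genW pencilFamily).Δ ≠ 0 := by
    rw [WeierstrassCurve.map_Δ]; exact RatFunc.algebraMap_ne_zero pencilFamily_Δ
  rw [genW_pencilFamily] at hΔ
  rw [map_secX, map_secY, genW_pencilFamily]
  exact nonsingular_sec hΔ

/-- The section. -/
def genSection : (genW pencilFamily).toAffine.Point := .some _ _ gen_nonsingular

theorem specW_genSection {t : ℚ} (ht : (fibreW pencilFamily t).Δ ≠ 0) :
    ∃ h, specW pencilFamily ht genSection = .some (secX t) (secY t) h := by
  obtain ⟨hy, h', e⟩ := FA.NeronSpecialisation.specW_some_of_mem ht gen_nonsingular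
    (FA.NeronSpecialisation.algebraMap_mem_valueRing t _)
  have hx₀ : ∀ (p : ℚ[X]) (hp : algebraMap ℚ[X] (RatFunc ℚ) p ∈ FA.NeronSpecialisation.valueRing t),
      FA.NeronSpecialisation.valueAt t ⟨_, hp⟩ = p.eval t := fun p hp =>
    FA.NeronSpecialisation.valueAt_algebraMap t p
  have ex : (secX (X : ℚ[X])).eval t = secX t := by
    rw [← coe_evalRingHom, map_secX, coe_evalRingHom, eval_X]
  have ey : (secY (X : ℚ[X])).eval t = secY t := by
    rw [← coe_evalRingHom, map_secY, coe_evalRingHom, eval_X]
  have key : ∀ {P : (fibreW pencilFamily t).toAffine.Point} {u v : ℚ}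
      (h'' : (fibreW pencilFamily t).toAffine.Nonsingular u v), P = .some u v h'' →
      u = secX t → v = secY t → ∃ h, P = .some (secX t) (secY t) h := by
    rintro P u v h'' e' rfl rfl
    exact ⟨h'', e'⟩
  exact key h' e ((hx₀ _ _).trans ex) ((hx₀ _ hy).trans ey)

/-- **The section has infinite order over `ℚ(L)`.** -/
theorem section_independent : LinearIndependent ℤ fun _ : Fin 1 => genSection := by
  refine LinearIndependent.of_comp (specW pencilFamily fibre_two_Δ).toIntLinearMap ?_
  obtain ⟨h, e⟩ := specW_genSection fibre_two_Δ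
  have key : ∀ (W : WeierstrassCurve ℚ), W = baseCurve → ∀ (P : W.toAffine.Point) (u v : ℚ)
      (h : W.toAffine.Nonsingular u v), P = .some u v h → u = ((21 : ℤ) : ℚ) / ((1 : ℤ) : ℚ) ^ 2 →
      v = 85 → LinearIndependent ℤ fun _ : Fin 1 => P := by
    rintro W rfl P u v h rfl rfl rfl
    exact base_independent
  exact key _ ((fibreW_pencilFamily 2).trans pencilCurve_two) _ _ _ h e
    (by norm_num [secX]) (by norm_num [secY])

/-- The parameters with infinitely many rational solutions `(X, Y)`. -/
def goodParameters : Set ℚ :=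
  {t | Set.Infinite {P : ℚ × ℚ | P.2 ^ 2 = P.1 ^ 3 + coefA t * P.1 + coefB t}}

/-- **All but finitely many fibres have infinitely many rational points.** -/
theorem finite_not_good : goodParametersᶜ.Finite := by
  refine (FA.LangNeron.finite_bad_parameters (K := ℚ) pencilFamily_Δ).subset ?_
  intro t ht hgood
  obtain ⟨h0, hinj⟩ := hgood
  refine ht ?_
  have hli : LinearIndependent ℤ fun _ : Fin 1 => specW pencilFamily h0 genSection :=
    section_independent.map' (specW pencilFamily h0).toIntLinearMap (LinearMap.ker_eq_bot.2 hinj)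
  have hmul : Function.Injective fun n : ℤ => n • specW pencilFamily h0 genSection := by
    intro n m e
    have := Fintype.linearIndependent_iff.1 hli (fun _ => n - m)
      (by rw [Fin.sum_univ_one, sub_zsmul]; exact sub_eq_zero.2 e) 0
    exact sub_eq_zero.1 this
  intro hfin
  refine Set.infinite_univ (α := ℤ) ?_
  have himg : (Set.range fun n : ℤ => n • specW pencilFamily h0 genSection).Finite := by
    refine ((hfin.image fun P : ℚ × ℚ =>
      if h : (fibreW pencilFamily t).toAffine.Nonsingular P.1 P.2 then
        Affine.Point.some P.1 P.2 h else 0).union (Set.finite_singleton 0)).subset ?_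
    rintro P -
    rcases P with _ | ⟨x, y, h⟩
    · exact Or.inr rfl
    · refine Or.inl ⟨(x, y), ?_, dif_pos h⟩
      have he := h.1
      simp only [fibreW_pencilFamily] at he
      exact pencil_equation_iff.1 he
  simpa using himg.preimage hmul.injOn

end FA.FermatQuartic
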